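import Fermat.Agent.RED.FF.LSpace
import Fermat.Agent.RED.Deuring.Main

/-!
# S36 [RFORM] : function field lemmas (integrality and poles, polar divisor)
-/

set_option autoImplicit false
noncomputable section

namespace Fermat.Agent.S36

open AlgebraicCurve Fermat.Agent.S24 Fermat.Agent.RED

variable {K F : Type*} [Field K] [Field F] [Algebra K F]

/-- regular wherever `T` is regular ⟹ integral over `K[T]`. -/
theorem isIntegral_adjoin_of_forall_place {x : F} (hx : IsSepParam K x) (T X : F)
    (h : ∀ v : Place K F, T ∈ v.toValuationSubring → X ∈ v.toValuationSubring) :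
    IsIntegral (Algebra.adjoin K {T}) X := by
  by_contra hX
  have hX' : X ∉ (integralClosure (Algebra.adjoin K {T}) F).toSubring := hX
  obtain ⟨V, hSV, hXV⟩ := Subring.exists_le_valuationSubring_of_isIntegrallyClosedIn hX'
  have hV : V ≠ ⊤ := fun h => hXV (h ▸ ValuationSubring.mem_top X)
  have hmem : ∀ z : Algebra.adjoin K {T}, (z : F) ∈ V := fun z =>
    hSV (show (z : F) ∈ integralClosure (Algebra.adjoin K {T}) F from
      isIntegral_algebraMap (R := Algebra.adjoin K {T}) (A := F) (x := z))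
  obtain ⟨v, hv⟩ := hx.exists_place_eq' V
    (fun a => hmem ⟨algebraMap K F a, Subalgebra.algebraMap_mem _ a⟩) hV
  apply hXV
  rw [← hv]
  apply h v
  rw [hv]
  exact hmem ⟨T, Algebra.subset_adjoin rfl⟩

/-- integral over `K[T]` ⟹ regular wherever `T` is regular. -/
theorem mem_place_of_isIntegral_adjoin {T X : F} (hX : IsIntegral (Algebra.adjoin K {T}) X)
    (v : Place K F) (hT : T ∈ v.toValuationSubring) : X ∈ v.toValuationSubring :=
  IsFiniteParam.intRing_le v.toValuationSubring v.algebraMap_mem' hT ⟨X, hX⟩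

/-- the polar divisor of `T`. -/
def polD (K : Type*) {F : Type*} [Field K] [Field F] [Algebra K F] (T : F) : Divisor K F :=
  (-(dv K T)) ⊔ 0

theorem polD_apply {x : F} (hx : IsSepParam K x) (T : F) (v : Place K F) :
    polD K T v = max (-(v.ord T)) 0 := by
  rw [polD, Finsupp.sup_apply, Finsupp.neg_apply, hx.dv_apply]
  rfl

theorem polD_nonneg (T : F) : 0 ≤ polD K T := le_sup_right

theorem neg_dv_le_polD (T : F) : -(dv K T) ≤ polD K T := le_sup_left

/-- `mapDomain` is monotone. -/
theorem mapDomain_nonneg {α β : Type*} (r : α → β) {D : α →₀ ℤ} (hD : 0 ≤ D) :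
    0 ≤ D.mapDomain r := by
  classical
  intro b
  rw [Finsupp.mapDomain, Finsupp.sum, Finsupp.finsetSum_apply]
  refine Finset.sum_nonneg fun a _ => ?_
  rw [Finsupp.single_apply]
  split_ifs
  · exact hD a
  · exact le_rfl

theorem mapDomain_mono' {α β : Type*} (r : α → β) {D E : α →₀ ℤ} (h : D ≤ E) :
    D.mapDomain r ≤ E.mapDomain r := by
  have := mapDomain_nonneg r (sub_nonneg.2 h)
  have e : E.mapDomain r = D.mapDomain r + (E - D).mapDomain r := by
    rw [← Finsupp.mapDomain_add]; congr 1; abel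
  rw [e]
  exact le_add_of_nonneg_right this

section Deuring

variable {k Fb : Type*} [Field k] [Field Fb] [Algebra k Fb]

/-- an element integral over `k[Tb]` lies in `L(n · (Tb)_∞)` for some `n`. -/
theorem exists_mem_LS_polD_of_isIntegral {xb : Fb} (hxb : IsSepParam k xb) {Tb ub : Fb}
    (hub : IsIntegral (Algebra.adjoin k {Tb}) ub) :
    ∃ n₀ : ℕ, ∀ n : ℕ, n₀ ≤ n → ub ∈ LS (n • polD k Tb) := by
  classical
  rcases eq_or_ne ub 0 with rfl | hub0
  · exact ⟨0, fun n _ => Submodule.zero_mem _⟩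
  refine ⟨∑ Q ∈ (dv k ub).support, (Q.ord ub).natAbs, fun n hn => ?_⟩
  rw [mem_LS_of_ne_zero hub0]
  intro Q
  rw [Finsupp.smul_apply, polD_apply hxb, nsmul_eq_mul]
  by_cases hT : Tb ∈ Q.toValuationSubring
  · have h1 : 0 ≤ Q.ord ub :=
      Place.ord_nonneg_of_mem Q (mem_place_of_isIntegral_adjoin hub Q hT)
    have h2 : (0 : ℤ) ≤ (n : ℤ) * max (-(Q.ord Tb)) 0 :=
      mul_nonneg (Int.natCast_nonneg n) (le_max_right _ _)
    push_cast
    linarith
  · have hT0 : Tb ≠ 0 := by rintro rfl; exact hT (zero_mem _)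
    have h1 : Q.ord Tb < 0 := by
      by_contra hcon
      exact hT ((Place.mem_iff_ord_nonneg Q hT0).2 (not_lt.1 hcon))
    have h2 : (1 : ℤ) ≤ max (-(Q.ord Tb)) 0 := le_max_of_le_left (by omega)
    have h3 : (Q.ord ub).natAbs ≤ n := by
      refine le_trans ?_ hn
      by_cases hQ : Q ∈ (dv k ub).support
      · exact Finset.single_le_sum (f := fun Q : Place k Fb => (Q.ord ub).natAbs)
          (fun _ _ => Nat.zero_le _) hQ
      · rw [Finsupp.notMem_support_iff, hxb.dv_apply] at hQ
        rw [hQ]; simp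
    have h4 : (n : ℤ) ≤ (n : ℤ) * max (-(Q.ord Tb)) 0 :=
      le_mul_of_one_le_right (Int.natCast_nonneg n) h2
    push_cast
    omega

/-- **Deuring**: an element of `Fb` integral over `k[red T]` is the reduction of an element of
`L(n · (T)_∞)`. -/
theorem exists_mem_redSub_LS_polD [IsAlgClosed K] [IsAlgClosed k] {R : RedData K F k Fb} {g c : ℤ}
    (H : DeuringHyp R g c) {x : F} (hx : IsSepParam K x) {xb : Fb} (hxb : IsSepParam k xb)
    (T : R.O) (hnc : R.red T ∉ Set.range (algebraMap k Fb))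
    {ub : Fb} (hub : IsIntegral (Algebra.adjoin k {R.red T}) ub) :
    ∃ n : ℕ, ub ∈ R.redSub (LS (n • polD K (T : F))) := by
  classical
  obtain ⟨r, -, hP1, hP3⟩ := H.exists_placeMap
  have hTb0 : R.red T ≠ 0 := fun h => hnc ⟨0, by rw [h, map_zero]⟩
  have hle : polD k (R.red T) ≤ (polD K (T : F)).mapDomain r := by
    intro Q
    rw [polD_apply hxb]
    refine max_le ?_ (mapDomain_nonneg r (polD_nonneg _) Q)
    have h1 := hP1 T hTb0 (dv K (T : F)) (fun v => hx.dv_apply _ v) Q
    have h2 := mapDomain_mono' r (neg_dv_le_polD (K := K) (T : F)) Q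
    have h3 : (-(dv K (T : F))).mapDomain r = -((dv K (T : F)).mapDomain r) :=
      map_neg (Finsupp.mapDomain.addMonoidHom r) _
    rw [h3, Finsupp.neg_apply, h1] at h2
    exact h2
  have hdeg : 1 ≤ Divisor.degree (polD K (T : F)) := by
    have h0 := hx.degree_nonneg (polD_nonneg (K := K) (T : F))
    rcases h0.lt_or_eq with h | h
    · omega
    · exfalso
      have hP0 := hx.eq_zero_of_degree_eq_zero (polD_nonneg (K := K) (T : F)) h.symm
      rw [hP0, Finsupp.mapDomain_zero] at hle
      apply hnc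
      apply hxb.mem_range_of_forall_ord_nonneg
      intro Q
      have := hle Q
      rw [polD_apply hxb, Finsupp.zero_apply] at this
      have := (max_le_iff.1 this).1
      omega
  obtain ⟨n₀, hn₀⟩ := exists_mem_LS_polD_of_isIntegral hxb hub
  refine ⟨max n₀ (c + g).toNat, ?_⟩
  obtain ⟨n, hn⟩ : ∃ n, n = max n₀ (c + g).toNat := ⟨_, rfl⟩
  rw [← hn]
  have hn1 : n₀ ≤ n := hn ▸ le_max_left _ _
  have hn2 : c + g ≤ n := by
    have : (c + g).toNat ≤ n := hn ▸ le_max_right _ _
    omega
  have hD : c + g ≤ Divisor.degree (n • polD K (T : F)) := by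
    rw [map_nsmul, nsmul_eq_mul]
    nlinarith
  rw [hP3 _ hD, Finsupp.mapDomain_smul]
  refine LS_mono (fun Q => ?_) (hn₀ n hn1)
  rw [Finsupp.smul_apply, Finsupp.smul_apply]
  exact smul_le_smul_of_nonneg_left (hle Q) (Nat.zero_le n)

end Deuring

end Fermat.Agent.S36
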