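import Mathlib

/-!
# S36 [RFORM] : descent of integrality along an algebraic extension of the constant field
-/

set_option autoImplicit false

namespace Fermat.Agent.S36

open Polynomial

/-- `φ y` integral over `K₁[φ t]`, `K₁ / K₀` algebraic ⟹ `y` integral over `K₀[t]`. -/
theorem isIntegral_adjoin_of_map {K₀ K₁ F₀ F₁ : Type*} [Field K₀] [Field K₁] [Algebra K₀ K₁]
    [Algebra.IsAlgebraic K₀ K₁] [Field F₀] [Field F₁] [Algebra K₀ F₀] [Algebra K₁ F₁]
    (φ : F₀ →+* F₁)
    (hφ : ∀ c : K₀, φ (algebraMap K₀ F₀ c) = algebraMap K₁ F₁ (algebraMap K₀ K₁ c))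
    (t y : F₀) (h : IsIntegral (Algebra.adjoin K₁ {φ t}) (φ y)) :
    IsIntegral (Algebra.adjoin K₀ {t}) y := by
  letI : Algebra (Algebra.adjoin K₀ {t}) F₁ :=
    (φ.comp (algebraMap (Algebra.adjoin K₀ {t}) F₀)).toAlgebra
  have halg : algebraMap (Algebra.adjoin K₀ {t}) F₁ =
      φ.comp (algebraMap (Algebra.adjoin K₀ {t}) F₀) := rfl
  have hC : ∀ z ∈ Algebra.adjoin K₁ {φ t}, z ∈ integralClosure (Algebra.adjoin K₀ {t}) F₁ := by
    intro z hz
    induction hz using Algebra.adjoin_induction with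
    | mem z hz =>
      rw [Set.mem_singleton_iff] at hz
      subst hz
      exact isIntegral_algebraMap (R := Algebra.adjoin K₀ {t}) (A := F₁)
        (x := ⟨t, Algebra.subset_adjoin rfl⟩)
    | algebraMap c =>
      obtain ⟨p, hp, hpc⟩ := (Algebra.IsAlgebraic.isAlgebraic (R := K₀) c).isIntegral
      refine ⟨p.map (algebraMap K₀ (Algebra.adjoin K₀ {t})), hp.map _, ?_⟩
      have e : (algebraMap (Algebra.adjoin K₀ {t}) F₁).comp
          (algebraMap K₀ (Algebra.adjoin K₀ {t})) =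
          (algebraMap K₁ F₁).comp (algebraMap K₀ K₁) := by
        ext1 a
        exact hφ a
      rw [eval₂_map, e, ← hom_eval₂, hpc, map_zero]
    | add a b _ _ ha hb => exact add_mem ha hb
    | mul a b _ _ ha hb => exact mul_mem ha hb
  obtain ⟨p, hp, hpy⟩ := h
  let ψ : Algebra.adjoin K₁ {φ t} →+* integralClosure (Algebra.adjoin K₀ {t}) F₁ :=
    (algebraMap (Algebra.adjoin K₁ {φ t}) F₁).codRestrict
      (integralClosure (Algebra.adjoin K₀ {t}) F₁) (fun z => hC z z.2)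
  have h1 : IsIntegral (integralClosure (Algebra.adjoin K₀ {t}) F₁) (φ y) := by
    refine ⟨p.map ψ, hp.map ψ, ?_⟩
    rw [eval₂_map]
    exact hpy
  have h2 : IsIntegral (Algebra.adjoin K₀ {t}) (φ y) := isIntegral_trans _ h1
  obtain ⟨p0, hp0, h0⟩ := h2
  refine ⟨p0, hp0, ?_⟩
  rw [halg, ← hom_eval₂] at h0
  exact (map_eq_zero φ).mp h0

end Fermat.Agent.S36
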