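import Fermat.Agent.S36.F0.Gauss
import Fermat.Agent.S36.F0.FFInt
import Fermat.Agent.S36.F0.IntDesc
import Fermat.Agent.RED.S18Main
import Fermat.Agent.RR.Hurwitz

/-!
# S36 [RFORM] : the integral closure of `k[tb]` in `Fb_M` lifts to `F0 A M`

`M` prime to `q`, `4 ∣ M` or `9 ∣ M`.  For `t ∈ F0 A M ∩ O0` with non constant reduction, every
element of `Fb_M` which is integral over `k[red0 t]` is the reduction of an element `y ∈ F0 A M ∩ O0`
which is integral over `KK[t]`.

Proof: Deuring's reduction of divisors over `ℚ̄` (`RED`: `red (L(D) ∩ O) = L(r_* D)`) for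
`D = n (t)_∞`, and the descent `[RFORM-abs]` of `S36/F0/Gauss.lean` for the `I_A`-stable space `L(D)`.
-/

set_option autoImplicit false
set_option synthInstance.maxHeartbeats 400000
noncomputable section

namespace Fermat.Agent.S36

open ModularCurve AlgebraicCurve Fermat.Agent.RED Fermat.Agent.RED.Gauss Fermat.Agent.S28
open Fermat.Agent.S24 (Kb FN)

section Stable

variable {K F : Type*} [Field K] [Field F] [Algebra K F]

/-- `L(n (T)_∞)` is stable under the semilinear automorphisms fixing `T`. -/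
theorem smul_mem_LS_polD (g : SemilinearAut K F) {x : F} (hx : IsSepParam K x) {T : F}
    (hT : g • T = T) (n : ℕ) {w : F} (hw : w ∈ LS (n • polD K T)) :
    g • w ∈ LS (n • polD K T) := by
  rcases eq_or_ne w 0 with rfl | hw0
  · rw [smul_zero]; exact Submodule.zero_mem _
  have hgw : g • w ≠ 0 := by rwa [Ne, smul_eq_zero_iff_eq]
  rw [mem_LS_of_ne_zero hgw]
  rw [mem_LS_of_ne_zero hw0] at hw
  intro v
  have h1 := hw (g⁻¹ • v)
  have h2 : v.ord (g • w) = (g⁻¹ • v).ord w := by
    conv_lhs => rw [← smul_inv_smul g v]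
    exact SemilinearAut.ord_smul g _ w
  have h3 : v.ord T = (g⁻¹ • v).ord T := by
    conv_lhs => rw [← smul_inv_smul g v, ← hT]
    exact SemilinearAut.ord_smul g _ T
  rw [Finsupp.smul_apply, polD_apply hx] at h1 ⊢
  rw [h2, h3]
  exact h1

end Stable

variable (A : ValuationSubring Kb) (M : ℕ) [NeZero M] {q : ℕ} [Fact q.Prime]
variable (hA : A.LiesOverPrime q) (hqM : ¬ q ∣ M)

/-- `DeuringHyp` at level `M` (as in `RED/S37/Exist.lean`). -/
theorem exists_deuringHyp36 (h49 : 4 ∣ M ∨ 9 ∣ M) :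
    ∃ g c : ℤ, DeuringHyp (gaussData A M hA hqM) g c := by
  have := charP_residueField A hA
  have := isAlgClosed_residueField A
  obtain ⟨c, H⟩ := exists_deuringHyp_gaussData M A hA hqM
    (gen_of_rhRel M
      (fun _ _ _ _ _ _ _ _ _ _ _ _ h1 h2 => Fermat.Agent.RR.rhRel h1 h2) h49 _ hqM)
  exact ⟨_, c, H⟩

set_option maxHeartbeats 1000000 in
/-- **[RFORM]** -/
theorem exists_lift_isIntegral (h49 : 4 ∣ M ∨ 9 ∣ M) (t : (gaussData0 A M hA hqM).O)
    (hnc : (gaussData0 A M hA hqM).red t ∉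
      Set.range (algebraMap (IsLocalRing.ResidueField A)
        (modularFunctionFieldFullC (IsLocalRing.ResidueField A) M)))
    (ub : modularFunctionFieldFullC (IsLocalRing.ResidueField A) M)
    (hub : IsIntegral (Algebra.adjoin (IsLocalRing.ResidueField A)
      {(gaussData0 A M hA hqM).red t}) ub) :
    ∃ y : (gaussData0 A M hA hqM).O, (gaussData0 A M hA hqM).red y = ub ∧
      IsIntegral (Algebra.adjoin (KK A) {(t : F0 A M)}) (y : F0 A M) := by
  have := charP_residueField A hA
  have := isAlgClosed_residueField A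
  obtain ⟨g, c, H⟩ := exists_deuringHyp36 A M hA hqM h49
  have hx := isSepParam_jF_deu M
  have hxb := Cusp.isSepParam_jb M (IsLocalRing.ResidueField A) q hqM
  obtain ⟨T, hT⟩ : ∃ T : (gaussData A M hA hqM).O, T = ⟨embF0 A M t, embF0_mem_O t.2⟩ := ⟨_, rfl⟩
  have hredT : (gaussData A M hA hqM).red T = (gaussData0 A M hA hqM).red t := by
    rw [hT]; exact red_embF0 A M hA hqM t
  have hTc : (T : FN M) = embF0 A M t := by rw [hT]
  obtain ⟨n, x, hxW, hxu⟩ := exists_mem_redSub_LS_polD H hx hxb T (by rw [hredT]; exact hnc)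
    (ub := ub) (by rw [hredT]; exact hub)
  have := H.finite_top (n • polD Kb (T : FN M))
  obtain ⟨y, hyW, hyx⟩ := exists_red_eq_of_stable A M hA hqM (LS (n • polD Kb (T : FN M)))
    (fun σ hσ w hw => smul_mem_LS_polD _ hx (by rw [hTc]; exact smul_embF0 A M hσ _) n hw) x hxW
  refine ⟨y, hyx.trans hxu, ?_⟩
  apply isIntegral_adjoin_of_map (embF0 A M) (embF0_algebraMap A M)
  apply isIntegral_adjoin_of_forall_place hx
  intro v hv
  rcases eq_or_ne (embF0 A M (y : F0 A M)) 0 with h0 | h0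
  · rw [h0]; exact zero_mem _
  rw [Fermat.Agent.S24.Place.mem_iff_ord_nonneg v h0]
  have h1 := (mem_LS_of_ne_zero h0).mp hyW v
  have h2 : 0 ≤ v.ord (T : FN M) := by
    rw [hTc]; exact Fermat.Agent.S24.Place.ord_nonneg_of_mem v hv
  rw [Finsupp.smul_apply, polD_apply hx, max_eq_right (by omega), smul_zero, neg_zero] at h1
  exact h1

end Fermat.Agent.S36
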