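import Fermat.Agent.RED.FF.Param

/-!
# S36 [RFORM] : `y ^ n - y` is a separating parameter if `y` is one and `n = 0` in `K`
-/

set_option autoImplicit false
set_option linter.style.haveILetI false

open IntermediateField Polynomial

namespace Fermat.Agent.S36

open Fermat.Agent.S24 Fermat.Agent.RED

variable {K F : Type*} [Field K] [Field F] [Algebra K F]

/-- going up: `F` is finite separable over a bigger intermediate field. -/
theorem finite_separable_of_le {E₁ : IntermediateField K F} {L : IntermediateField K F}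
    (E₂ : IntermediateField L F) (h : ∀ x ∈ E₁, x ∈ E₂)
    [FiniteDimensional E₁ F] [Algebra.IsSeparable E₁ F] :
    FiniteDimensional E₂ F ∧ Algebra.IsSeparable E₂ F := by
  let φ : E₁ →+* E₂ := (algebraMap E₁ F).codRestrict E₂.toSubfield.toSubring (fun x => h x x.2)
  letI : Algebra E₁ E₂ := φ.toAlgebra
  haveI : IsScalarTower E₁ E₂ F := IsScalarTower.of_algebraMap_eq (fun _ => rfl)
  exact ⟨Module.Finite.of_restrictScalars_finite E₁ E₂ F, Algebra.isSeparable_tower_top_of_isSeparable E₁ E₂ F⟩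

theorem IsSepParam.pow_sub_self {y : F} (hy : IsSepParam K y) {n : ℕ} (hn : (n : K) = 0)
    (hn1 : 1 < n) : IsSepParam K (y ^ n - y) := by
  obtain ⟨τ, hτ⟩ : ∃ τ : F, τ = y ^ n - y := ⟨_, rfl⟩
  rw [← hτ]
  have htr : Transcendental K τ := by
    have h1 : τ = aeval y (X ^ n - X : K[X]) := by simp [hτ]
    have hdeg : (X ^ n - X : K[X]).natDegree = n := by
      rw [natDegree_sub_eq_left_of_natDegree_lt] <;> simp [hn1]
    have hlc : (X ^ n - X : K[X]).leadingCoeff = 1 := by
      rw [leadingCoeff_sub_of_degree_lt] <;> simp [hn1]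
    rw [h1]
    refine hy.transcendental.aeval _ (by omega) ?_
    rw [hlc]; exact one_mem _
  -- `y` is a root of the separable polynomial `X ^ n - X - τ` over `K(τ)`
  let τ' : K⟮τ⟯ := ⟨τ, mem_adjoin_simple_self K τ⟩
  let P : (K⟮τ⟯)[X] := X ^ n - X - C τ'
  have hPm : P.Monic := by
    have : P = X ^ n - (X + C τ') := by simp only [P]; ring
    rw [this]
    apply monic_X_pow_sub
    rw [degree_X_add_C]
    exact_mod_cast hn1
  have hPy : aeval y P = 0 := by
    simp only [P, map_sub, map_pow, aeval_X, aeval_C]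
    show y ^ n - y - τ = 0
    rw [hτ, sub_self]
  have hPsep : P.Separable := by
    have hn' : (n : K⟮τ⟯) = 0 := by
      have := congrArg (algebraMap K K⟮τ⟯) hn
      simpa using this
    have hd : derivative P = -1 := by
      simp only [P, derivative_sub, derivative_X_pow, derivative_X, derivative_C, sub_zero]
      rw [hn', C_0, zero_mul, zero_sub]
    rw [separable_def, hd]
    exact (isCoprime_one_right).neg_right
  have hint : IsIntegral K⟮τ⟯ y := ⟨P, hPm, hPy⟩
  have hsep : IsSeparable K⟮τ⟯ y := hPsep.of_dvd (minpoly.dvd _ _ hPy)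
  haveI h1 : FiniteDimensional K⟮τ⟯ (K⟮τ⟯)⟮y⟯ := adjoin.finiteDimensional hint
  haveI h2 : Algebra.IsSeparable K⟮τ⟯ (K⟮τ⟯)⟮y⟯ :=
    (isSeparable_adjoin_simple_iff_isSeparable _ _).2 hsep
  haveI := hy.finite
  haveI := hy.separable
  obtain ⟨h3, h4⟩ := finite_separable_of_le (E₁ := K⟮y⟯) ((K⟮τ⟯)⟮y⟯) (by
    intro x hx
    have hle : K⟮y⟯ ≤ ((K⟮τ⟯)⟮y⟯).restrictScalars K := by
      rw [adjoin_simple_le_iff]
      exact mem_adjoin_simple_self (K⟮τ⟯) y
    exact hle hx)
  exact
    { transcendental := htr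
      finite := FiniteDimensional.trans K⟮τ⟯ (K⟮τ⟯)⟮y⟯ F
      separable := Algebra.IsSeparable.trans K⟮τ⟯ (K⟮τ⟯)⟮y⟯ F }

end Fermat.Agent.S36
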