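import Fermat.Agent.S36.Mod.Objects
import Fermat.Agent.S36.F0.RForm
import Fermat.Agent.S36.F0.SepTau

/-!
# S36 : level `M` facts in the language of `Ctx` (`Mod/Objects.lean`)

Bridge between `C.O1`, `C.red1` and the Gauss datum `gaussData0` of `S36/F0/Gauss.lean`;
`red1` is onto `Fb_M`; `[RFORM]` in `Ctx` language.
-/

set_option autoImplicit false
set_option synthInstance.maxHeartbeats 400000
noncomputable section

namespace Fermat.Agent.S36

open ModularCurve AlgebraicCurve Fermat.Agent.RED Fermat.Agent.RED.Gauss Fermat.Agent.S28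
open Fermat.Agent.S24 (Kb FN)

namespace Ctx

variable (C : Ctx)

/-- the residue function field at level `M` -/
abbrev Fb : IntermediateField C.k (LaurentSeries C.k) := modularFunctionFieldFullC C.k C.M

/-- the Gauss datum of `C.FM` -/
abbrev gd0 : RedData C.K C.FM C.k C.Fb := gaussData0 C.A C.M C.hA C.hqM

theorem mem_O1_iff (y : C.FM) : y ∈ C.O1 ↔ y ∈ C.gd0.O :=
  (mem_gaussData0_O_iff C.A C.M C.hA C.hqM y).symm

theorem O1_eq : C.O1 = C.gd0.O := by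
  ext y
  exact C.mem_O1_iff y

theorem red1_eq (y : C.FM) (h1 : y ∈ C.O1) (h0 : y ∈ C.gd0.O) :
    C.red1 ⟨y, h1⟩ = ((C.gd0.red ⟨y, h0⟩ : C.Fb) : LaurentSeries C.k) := by
  rw [← red_embF0 C.A C.M C.hA C.hqM ⟨y, h0⟩]
  rfl

theorem red1_mem (y : C.O1) : C.red1 y ∈ C.Fb := by
  obtain ⟨y, hy⟩ := y
  rw [C.red1_eq y hy ((C.mem_O1_iff y).1 hy)]
  exact Subtype.mem _

theorem exists_red1_eq {u : LaurentSeries C.k} (hu : u ∈ C.Fb) : ∃ y : C.O1, C.red1 y = u := by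
  obtain ⟨y, hy⟩ := C.gd0.red_surjective ⟨u, hu⟩
  refine ⟨⟨y, (C.mem_O1_iff y).2 y.2⟩, ?_⟩
  rw [C.red1_eq y _ y.2, hy]

/-- **[RFORM]** in `Ctx` language. -/
theorem rform (h49 : 4 ∣ C.M ∨ 9 ∣ C.M) (t : C.O1)
    (hnc : C.red1 t ∉ Set.range (algebraMap C.k (LaurentSeries C.k)))
    {ub : LaurentSeries C.k} (hub : ub ∈ C.Fb)
    (hint : IsIntegral (Algebra.adjoin C.k {C.red1 t}) ub) :
    ∃ y : C.O1, C.red1 y = ub ∧ IsIntegral (Algebra.adjoin C.K {(t : C.FM)}) (y : C.FM) := by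
  obtain ⟨t, ht⟩ := t
  have ht0 : t ∈ C.gd0.O := (C.mem_O1_iff t).1 ht
  have hred := C.red1_eq t ht ht0
  rw [hred] at hnc hint
  obtain ⟨y, hy, hyint⟩ := exists_lift_isIntegral C.A C.M C.hA C.hqM h49 ⟨t, ht0⟩
    (by
      rintro ⟨c, hc⟩
      exact hnc ⟨c, congrArg Subtype.val hc⟩)
    ⟨ub, hub⟩
    (isIntegral_adjoin_of_map (K₀ := C.k) (K₁ := C.k) (algebraMap C.Fb (LaurentSeries C.k))
      (fun _ => rfl) _ _ hint)
  refine ⟨⟨y, (C.mem_O1_iff y).2 y.2⟩, ?_, hyint⟩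
  rw [C.red1_eq y _ y.2, hy]

end Ctx

end Fermat.Agent.S36
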