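import Fermat.Agent.S36.F0.Basic
import Fermat.Agent.RED.Deuring.Modular

/-!
# S36 [F0] : the Gauss datum of `F0 A N` over `(KK A, RK A)` (level `N` prime to `q`), `[RFORM-abs]`

RED's Gauss machinery is generic in the valued field; we instantiate it with `(KK A, RK A)`.

* `gaussData0` : the constant reduction datum of `F0 A N / KK A` with residue function field
  `Fb_N / k`;
* `mem_gaussData0_O_iff`, `red_embF0` : compatibility with `gaussData` (over `ℚ̄`);
* `exists_zpow_mul_unit` : the value group of the Gauss valuation of `F0 A N` is generated by `q`;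
* `exists_red_eq_of_stable` **[RFORM-abs]** : for an `I_A`-stable finite dimensional `ℚ̄`-subspace
  `W` of `FN N`, every reduction of an element of `W ∩ O` is the reduction of an element of
  `W ∩ F0 ∩ O`.
-/

set_option autoImplicit false
set_option synthInstance.maxHeartbeats 400000
noncomputable section

namespace Fermat.Agent.S36

open ModularCurve AlgebraicCurve Fermat.Agent.RED Fermat.Agent.RED.Gauss Fermat.Agent.S28
open Fermat.Agent.S24 (Kb FN)

local notation "GQ" => (AlgebraicClosure ℚ ≃ₐ[ℚ] AlgebraicClosure ℚ)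

variable (A : ValuationSubring Kb)

/-! shortcut instances (the generic search takes seconds) -/

instance instAlgebraResFb (N : ℕ) : Algebra (IsLocalRing.ResidueField A)
    (modularFunctionFieldFullC (IsLocalRing.ResidueField A) N) :=
  SubalgebraClass.toAlgebra _

instance instModuleResFb (N : ℕ) : Module (IsLocalRing.ResidueField A)
    (modularFunctionFieldFullC (IsLocalRing.ResidueField A) N) :=
  Algebra.toModule

/-- `RK A → A` -/
def inclRK : RK A →+* A := inclR0 A

theorem coe_inclRK (y : RK A) : ((inclRK A y : A) : Kb) = algebraMap (KK A) Kb (y : KK A) := rfl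

/-- `RK A → k` -/
def pi0 : RK A →+* IsLocalRing.ResidueField A := (IsLocalRing.residue A).comp (inclRK A)

theorem cK_iota (b : LaurentSeries (RK A)) :
    cK A (iota (RK A) b) = iota A (coeffMap (inclRK A) b) := by
  ext n
  rfl

theorem pi_coeffMap_inclRK (b : LaurentSeries (RK A)) :
    pi (IsLocalRing.residue A) (coeffMap (inclRK A) b) = pi (pi0 A) b := by
  ext n
  rfl

variable {A} in
theorem cK_mem_bigO {x : LaurentSeries (KK A)} (hx : x ∈ bigO (pi0 A)) :
    cK A x ∈ bigO (IsLocalRing.residue A) := by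
  obtain ⟨a, b, hb, h⟩ := hx
  refine ⟨coeffMap (inclRK A) a, coeffMap (inclRK A) b, ?_, ?_⟩
  · rw [pi_coeffMap_inclRK]; exact hb
  · rw [← cK_iota, ← cK_iota, ← map_mul, h]

theorem bigRed_cK {x : LaurentSeries (KK A)} (hx : x ∈ bigO (pi0 A)) :
    bigRed (IsLocalRing.residue A) ⟨cK A x, cK_mem_bigO hx⟩ = bigRed (pi0 A) ⟨x, hx⟩ := by
  obtain ⟨a, b, hb, h⟩ := id hx
  have h1 : bigRed (pi0 A) ⟨x, hx⟩ = pi (pi0 A) a / pi (pi0 A) b := bigRed_eq (pi0 A) _ hb h
  have hb' : pi (IsLocalRing.residue A) (coeffMap (inclRK A) b) ≠ 0 := by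
    rw [pi_coeffMap_inclRK]; exact hb
  have h' : cK A x * iota A (coeffMap (inclRK A) b) = iota A (coeffMap (inclRK A) a) := by
    rw [← cK_iota, ← cK_iota, ← h, map_mul]
  have h2 : bigRed (IsLocalRing.residue A) ⟨cK A x, cK_mem_bigO hx⟩ =
      pi (IsLocalRing.residue A) (coeffMap (inclRK A) a) /
        pi (IsLocalRing.residue A) (coeffMap (inclRK A) b) :=
    bigRed_eq (IsLocalRing.residue A) _ hb' h'
  rw [h1, h2, pi_coeffMap_inclRK, pi_coeffMap_inclRK]

variable (N : ℕ) [NeZero N] {q : ℕ} [Fact q.Prime]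

theorem pi0_surjective (hA : A.LiesOverPrime q) : Function.Surjective (pi0 A) :=
  residue_inclR0_surjective Fact.out hA

/-- the normalisation property for `F0_N` over `K₀`. -/
theorem gaussNorm0 (hA : A.LiesOverPrime q) (hqN : ¬ q ∣ N) :
    Norm (pi0 A) (laurentBaseChange (KK A) (modularFunctionFieldFull N)) :=
  haveI := charP_residueField A hA
  gaussNorm (pi0 A) (pi0_surjective A hA) (card_Q_pos N) (exists_isCoreExt N q hqN).choose_spec

/-- **the Gauss datum** of `F0_N` over `(K₀, R₀)`. -/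
def gaussData0 (hA : A.LiesOverPrime q) (hqN : ¬ q ∣ N) :
    RedData (KK A) (F0 A N)
      (IsLocalRing.ResidueField A) (modularFunctionFieldFullC (IsLocalRing.ResidueField A) N) :=
  haveI := charP_residueField A hA
  gaussRedData (pi0 A) (pi0_surjective A hA) (card_Q_pos N) (exists_isCoreExt N q hqN).choose_spec

variable (hA : A.LiesOverPrime q) (hqN : ¬ q ∣ N)

theorem gaussData0_O : (gaussData0 A N hA hqN).O = gO (gaussNorm0 A N hA hqN) := rfl

theorem mem_gaussData0_O (x : F0 A N) :
    x ∈ (gaussData0 A N hA hqN).O ↔ (x : LaurentSeries (KK A)) ∈ bigO (pi0 A) := Iff.rfl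

theorem coe_gaussData0_red (x : gO (gaussNorm0 A N hA hqN)) :
    (((gaussData0 A N hA hqN).red x : modularFunctionFieldFullC (IsLocalRing.ResidueField A) N) :
      LaurentSeries (IsLocalRing.ResidueField A)) = gRed (gaussNorm0 A N hA hqN) x :=
  rfl

variable {A N hA hqN} in
theorem embF0_mem_O {y : F0 A N}
    (hy : y ∈ (gaussData0 A N hA hqN).O) :
    embF0 A N y ∈ (gaussData A N hA hqN).O :=
  cK_mem_bigO hy

/-- compatibility of the reductions -/
theorem red_embF0 (y : (gaussData0 A N hA hqN).O) :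
    (gaussData A N hA hqN).red ⟨embF0 A N y, embF0_mem_O y.2⟩ =
      (gaussData0 A N hA hqN).red y :=
  Subtype.ext (bigRed_cK A y.2)

theorem mem_gaussData0_O_iff (y : F0 A N) :
    y ∈ (gaussData0 A N hA hqN).O ↔
      embF0 A N y ∈ (gaussData A N hA hqN).O := by
  refine ⟨embF0_mem_O, fun h => ?_⟩
  by_contra hy
  have hy0 : y ≠ 0 := by rintro rfl; exact hy (zero_mem _)
  have hinv : y⁻¹ ∈ (gaussData0 A N hA hqN).O :=
    ((gaussData0 A N hA hqN).O.mem_or_inv_mem y).resolve_left hy
  have hred : (gaussData0 A N hA hqN).red ⟨y⁻¹, hinv⟩ = 0 := by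
    by_contra hne
    have := (gaussData0 A N hA hqN).inv_mem_of_red_ne_zero hne
    rw [inv_inv] at this
    exact hy this
  have h1 := red_embF0 A N hA hqN ⟨y⁻¹, hinv⟩
  rw [hred] at h1
  have h2 : (⟨embF0 A N y, h⟩ : (gaussData A N hA hqN).O) *
      ⟨embF0 A N y⁻¹, embF0_mem_O hinv⟩ = 1 := by
    apply Subtype.ext
    show embF0 A N y * embF0 A N y⁻¹ = 1
    rw [← map_mul, mul_inv_cancel₀ hy0, map_one]
  have h3 := congrArg (gaussData A N hA hqN).red h2
  rw [map_mul, h1, mul_zero, map_one] at h3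
  exact zero_ne_one h3

/-- **the value group of the Gauss valuation of `F0_N` is generated by `q`**. -/
theorem exists_zpow_mul_unit (y : F0 A N)
    (hy : y ≠ 0) :
    ∃ (n : ℤ) (u : ((gaussData0 A N hA hqN).O)ˣ),
      y = (q : F0 A N) ^ n *
        ((u : (gaussData0 A N hA hqN).O) : F0 A N) := by
  have hq : q.Prime := Fact.out
  obtain ⟨c, u, hc, hyu⟩ : ∃ (c : KK A) (u : ((gaussData0 A N hA hqN).O)ˣ), c ≠ 0 ∧
      y = algebraMap (KK A) _ c * ((u : (gaussData0 A N hA hqN).O) :
        F0 A N) :=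
    exists_const_mul_unit (gaussNorm0 A N hA hqN) y hy
  have hc0 : algebraMap (KK A) Kb c ≠ 0 := by rwa [Ne, map_eq_zero]
  obtain ⟨n, hn⟩ := exists_zpow_of_inertia_fixed hq hA hc0 (mem_K0.mp (algebraMap_KK_mem c))
  have hq0 : (q : KK A) ≠ 0 := by exact_mod_cast hq.ne_zero
  have hqv : A.valuation (q : Kb) ≠ 0 := by
    rw [Ne, map_eq_zero]; exact_mod_cast hq.ne_zero
  obtain ⟨c', hc'⟩ : ∃ c' : KK A, c' = c / (q : KK A) ^ n := ⟨_, rfl⟩
  have hv : A.valuation (algebraMap (KK A) Kb c') = 1 := by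
    rw [hc', map_div₀, map_zpow₀, map_natCast, map_div₀, map_zpow₀, hn,
      div_self (zpow_ne_zero _ hqv)]
  have hv' : A.valuation (algebraMap (KK A) Kb c'⁻¹) = 1 := by
    rw [map_inv₀, map_inv₀, hv, inv_one]
  have hc'0 : c' ≠ 0 := by
    rintro rfl
    rw [map_zero, map_zero] at hv
    exact zero_ne_one hv
  have m1 := algebraMap_mem_gO (gaussNorm0 A N hA hqN) (⟨c', mem_RK.mpr hv.le⟩ : RK A)
  have m2 := algebraMap_mem_gO (gaussNorm0 A N hA hqN) (⟨c'⁻¹, mem_RK.mpr hv'.le⟩ : RK A)
  let w : ((gaussData0 A N hA hqN).O)ˣ :=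
    { val := ⟨_, m1⟩
      inv := ⟨_, m2⟩
      val_inv := Subtype.ext (by
        show algebraMap (KK A) _ c' * algebraMap (KK A) _ c'⁻¹ = 1
        rw [← map_mul, mul_inv_cancel₀ hc'0, map_one])
      inv_val := Subtype.ext (by
        show algebraMap (KK A) _ c'⁻¹ * algebraMap (KK A) _ c' = 1
        rw [← map_mul, inv_mul_cancel₀ hc'0, map_one]) }
  refine ⟨n, w * u, ?_⟩
  have hcc : c = (q : KK A) ^ n * c' := by
    rw [hc', mul_div_cancel₀ _ (zpow_ne_zero _ hq0)]
  show y = _ * (algebraMap (KK A) _ c' * _)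
  rw [hyu, hcc, map_mul, map_zpow₀, map_natCast, mul_assoc]

theorem exists_valuation_eq_zpow (y : F0 A N)
    (hy : y ≠ 0) :
    ∃ n : ℤ, (gaussData0 A N hA hqN).O.valuation y =
      (gaussData0 A N hA hqN).O.valuation
        (q : F0 A N) ^ n := by
  obtain ⟨n, u, hu⟩ := exists_zpow_mul_unit A N hA hqN y hy
  refine ⟨n, ?_⟩
  rw [hu, map_mul, map_zpow₀, (ValuationSubring.valuation_eq_one_iff _ _).mp u.isUnit, mul_one]

set_option maxHeartbeats 1000000 in
/-- **[RFORM-abs]**: descent of reductions to the inertia field. -/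
theorem exists_red_eq_of_stable (W : Submodule Kb (modularFunctionFieldBar N))
    [FiniteDimensional Kb W]
    (hW : ∀ σ ∈ A.inertiaSubgroupIn ℚ, ∀ w ∈ W,
      arithmeticGalois (modularFunctionFieldFull N) σ • w ∈ W)
    (x : (gaussData A N hA hqN).O) (hx : (x : modularFunctionFieldBar N) ∈ W) :
    ∃ y : (gaussData0 A N hA hqN).O,
      embF0 A N (y : F0 A N) ∈ W ∧
      (gaussData0 A N hA hqN).red y = (gaussData A N hA hqN).red x := by
  classical
  have hspan := span_inter_range_embF0 A N W hW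
  obtain ⟨b, hbT, hbspan, hbli⟩ := exists_linearIndependent Kb
    {v | v ∈ W ∧ v ∈ Set.range (embF0 A N)}
  rw [hspan] at hbspan
  have hbW : ∀ i : b, (i : modularFunctionFieldBar N) ∈ W := fun i => (hbT i.2).1
  have hfin : Finite b := by
    have h1 : LinearIndependent Kb (fun i : b => (⟨i, hbW i⟩ : W)) :=
      LinearIndependent.of_comp W.subtype hbli
    exact h1.finite_of_isNoetherian
  have := Fintype.ofFinite b
  choose y hy using fun i : b => (hbT i.2).2
  have hd : Module.finrank Kb W = Fintype.card b := by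
    have := finrank_span_eq_card hbli
    rwa [Subtype.range_coe, hbspan] at this
  have hyli : LinearIndependent (KK A) y := by
    rw [Fintype.linearIndependent_iff]
    intro g hg i
    have h1 := congrArg (embF0 A N) hg
    rw [map_sum, map_zero] at h1
    simp only [embF0_smul, hy] at h1
    have h2 := Fintype.linearIndependent_iff.mp hbli (fun i => algebraMap (KK A) Kb (g i)) h1 i
    exact (map_eq_zero _).mp h2
  obtain ⟨V', hV'⟩ : ∃ V' : Submodule (KK A) (F0 A N),
      V' = Submodule.span (KK A) (Set.range y) := ⟨_, rfl⟩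
  have hV'fd : FiniteDimensional (KK A) V' := by
    rw [hV']; exact FiniteDimensional.span_of_finite _ (Set.finite_range y)
  have hV'd : Module.finrank (KK A) V' = Fintype.card b := by
    rw [hV']; exact finrank_span_eq_card hyli
  have hV'W : ∀ z ∈ V', embF0 A N z ∈ W := by
    intro z hz
    rw [hV'] at hz
    induction hz using Submodule.span_induction with
    | mem z hz => obtain ⟨i, rfl⟩ := hz; rw [hy]; exact hbW i
    | zero => rw [map_zero]; exact W.zero_mem
    | add a c _ _ ha hc => rw [map_add]; exact W.add_mem ha hc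
    | smul c a _ ha => rw [embF0_smul]; exact W.smul_mem _ ha
  have hon : Module.finrank (KK A) V' ≤
      Module.finrank (IsLocalRing.ResidueField A) ((gaussData0 A N hA hqN).redSub V') := by
    have := charP_residueField A hA
    exact gaussRedData_on (pi0 A) (pi0_surjective A hA) (card_Q_pos N)
      (exists_isCoreExt N q hqN).choose_spec V' hV'fd
  have hle : (gaussData0 A N hA hqN).redSub V' ≤ (gaussData A N hA hqN).redSub W := by
    rintro _ ⟨z, hz, rfl⟩
    exact ⟨⟨_, embF0_mem_O z.2⟩, hV'W _ hz, red_embF0 A N hA hqN z⟩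
  obtain ⟨hfd, hle2⟩ := (gaussData A N hA hqN).finrank_redSub_le W
  have heq : (gaussData0 A N hA hqN).redSub V' = (gaussData A N hA hqN).redSub W :=
    Submodule.eq_of_le_of_finrank_le hle
      (hle2.trans (hd.le.trans (hV'd.symm.le.trans hon)))
  have hxr : (gaussData A N hA hqN).red x ∈ (gaussData A N hA hqN).redSub W := ⟨x, hx, rfl⟩
  rw [← heq] at hxr
  obtain ⟨z, hz, hzx⟩ := hxr
  exact ⟨z, hV'W _ hz, hzx⟩

end Fermat.Agent.S36
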