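import Mathlib

/-!
# S36 [F0] : abstract Galois descent of subspaces (minimal length argument)

`V` a `K`-vector space with a family of semilinear additive maps `sV i` (over ring endomorphisms
`sK i` of `K`).  If `V` is spanned by its invariants, then every stable subspace `W` is spanned by
the invariants which it contains.  No finiteness and no Galois theory is needed.
-/

set_option autoImplicit false

namespace Fermat.Agent.S36

theorem span_invariants_of_stable {K V ι : Type*} [Field K] [AddCommGroup V] [Module K V]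
    (sK : ι → K →+* K) (sV : ι → V →+ V)
    (hsl : ∀ i c v, sV i (c • v) = sK i c • sV i v)
    (hspan : Submodule.span K {v : V | ∀ i, sV i v = v} = ⊤)
    (W : Submodule K V) (hW : ∀ i, ∀ w ∈ W, sV i w ∈ W) :
    Submodule.span K {v : V | v ∈ W ∧ ∀ i, sV i v = v} = W := by
  classical
  obtain ⟨W', hW'⟩ : ∃ W', W' = Submodule.span K {v : V | v ∈ W ∧ ∀ i, sV i v = v} := ⟨_, rfl⟩
  rw [← hW']
  have hle : W' ≤ W := by
    rw [hW', Submodule.span_le]
    exact fun v hv => hv.1
  have hgen : ∀ v, v ∈ W → (∀ i, sV i v = v) → v ∈ W' := fun v h1 h2 => by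
    rw [hW']; exact Submodule.subset_span ⟨h1, h2⟩
  have hst : ∀ i, ∀ w ∈ W', sV i w ∈ W' := by
    intro i w hw
    rw [hW'] at hw
    induction hw using Submodule.span_induction with
    | mem v hv => rw [hv.2 i]; exact hgen v hv.1 hv.2
    | zero => rw [map_zero]; exact W'.zero_mem
    | add x y _ _ hx hy => rw [map_add]; exact W'.add_mem hx hy
    | smul c x _ hx => rw [hsl]; exact W'.smul_mem _ hx
  have hsum : ∀ (i : ι) (s : Finset V) (c : V → K), (∀ y ∈ s, ∀ i, sV i y = y) →
      sV i (∑ y ∈ s, c y • y) = ∑ y ∈ s, sK i (c y) • y := by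
    intro i s c hs
    rw [map_sum]
    exact Finset.sum_congr rfl fun y hy => by rw [hsl, hs y hy i]
  have key : ∀ n : ℕ, ∀ s : Finset V, s.card = n → (∀ y ∈ s, ∀ i, sV i y = y) →
      ∀ c : V → K, ∀ w ∈ W, w - ∑ y ∈ s, c y • y ∈ W' → w ∈ W' := by
    intro n
    induction n with
    | zero =>
      intro s hs _ c w _ hd
      rw [Finset.card_eq_zero.mp hs, Finset.sum_empty, sub_zero] at hd
      exact hd
    | succ n ih =>
      intro s hs hinv c w hw hd
      obtain ⟨y1, hy1⟩ : s.Nonempty := Finset.card_pos.mp (by omega)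
      have hcard : ∀ y ∈ s, (s.erase y).card = n := fun y hy => by
        rw [Finset.card_erase_of_mem hy, hs]; rfl
      have hinv' : ∀ y0, ∀ y ∈ s.erase y0, ∀ i, sV i y = y :=
        fun y0 y hy => hinv y (Finset.mem_of_mem_erase hy)
      by_cases hc1 : c y1 = 0
      · refine ih (s.erase y1) (hcard y1 hy1) (hinv' y1) c w hw ?_
        rw [← Finset.add_sum_erase s _ hy1, hc1, zero_smul, zero_add] at hd
        exact hd
      -- normalise
      obtain ⟨c1, hc1def⟩ : ∃ c1 : V → K, c1 = fun y => (c y1)⁻¹ * c y := ⟨_, rfl⟩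
      obtain ⟨w1, hw1def⟩ : ∃ w1 : V, w1 = (c y1)⁻¹ • w := ⟨_, rfl⟩
      have hw1 : w1 ∈ W := by rw [hw1def]; exact W.smul_mem _ hw
      obtain ⟨S, hS⟩ : ∃ S : V, S = ∑ y ∈ s, c1 y • y := ⟨_, rfl⟩
      have hd1 : w1 - S ∈ W' := by
        have : w1 - S = (c y1)⁻¹ • (w - ∑ y ∈ s, c y • y) := by
          rw [hS, hw1def, hc1def, smul_sub, Finset.smul_sum]
          simp only [mul_smul]
        rw [this]; exact W'.smul_mem _ hd
      have hc11 : c1 y1 = 1 := by rw [hc1def]; exact inv_mul_cancel₀ hc1
      suffices h : w1 ∈ W' by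
        have : w = c y1 • w1 := by rw [hw1def, smul_smul, mul_inv_cancel₀ hc1, one_smul]
        rw [this]; exact W'.smul_mem _ h
      by_cases hall : ∀ y ∈ s, ∀ i, sK i (c1 y) = c1 y
      · -- all coefficients invariant
        have hSinv : ∀ i, sV i S = S := by
          intro i
          rw [hS, hsum i s c1 hinv]
          exact Finset.sum_congr rfl fun y hy => by rw [hall y hy i]
        have hSW : S ∈ W := by
          have : S = w1 - (w1 - S) := by abel
          rw [this]; exact W.sub_mem hw1 (hle hd1)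
        have : w1 = S + (w1 - S) := by abel
        rw [this]; exact W'.add_mem (hgen S hSW hSinv) hd1
      · push Not at hall
        obtain ⟨y2, hy2, i, hne⟩ := hall
        obtain ⟨D, hD⟩ : ∃ D : V → K, D = fun y => sK i (c1 y) - c1 y := ⟨_, rfl⟩
        have hD1 : D y1 = 0 := by rw [hD]; simp only [hc11, map_one, sub_self]
        have hD2 : D y2 ≠ 0 := by rw [hD]; exact sub_ne_zero.mpr hne
        obtain ⟨E, hE⟩ : ∃ E : V, E = ∑ y ∈ s, D y • y := ⟨_, rfl⟩
        have hES : E = sV i S - S := by
          rw [hE, hS, hsum i s c1 hinv, ← Finset.sum_sub_distrib, hD]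
          exact Finset.sum_congr rfl fun y _ => by rw [sub_smul]
        have hE1 : E = ∑ y ∈ s.erase y1, D y • y := by
          rw [hE, ← Finset.add_sum_erase s _ hy1, hD1, zero_smul, zero_add]
        have hdd : sV i (w1 - S) - (w1 - S) ∈ W' := W'.sub_mem (hst i _ hd1) hd1
        have h1 : sV i w1 - w1 ∈ W' := by
          refine ih (s.erase y1) (hcard y1 hy1) (hinv' y1) D _ (W.sub_mem (hW i _ hw1) hw1) ?_
          rw [← hE1, hES]
          have : sV i w1 - w1 - (sV i S - S) = sV i (w1 - S) - (w1 - S) := by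
            rw [map_sub]; abel
          rw [this]; exact hdd
        have hEW : E ∈ W' := by
          have : E = (sV i w1 - w1) - (sV i (w1 - S) - (w1 - S)) := by
            rw [hES, map_sub]; abel
          rw [this]; exact W'.sub_mem h1 hdd
        refine ih (s.erase y2) (hcard y2 hy2) (hinv' y2)
          (fun y => c1 y - c1 y2 * (D y2)⁻¹ * D y) w1 hw1 ?_
        have : w1 - ∑ y ∈ s.erase y2, (c1 y - c1 y2 * (D y2)⁻¹ * D y) • y
            = (w1 - S) + (c1 y2 * (D y2)⁻¹) • E := by
          have e1 : S = c1 y2 • y2 + ∑ y ∈ s.erase y2, c1 y • y := by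
            rw [hS]; exact (Finset.add_sum_erase s (fun y => c1 y • y) hy2).symm
          have e2 : E = D y2 • y2 + ∑ y ∈ s.erase y2, D y • y := by
            rw [hE]; exact (Finset.add_sum_erase s (fun y => D y • y) hy2).symm
          have e3 : ∑ y ∈ s.erase y2, (c1 y - c1 y2 * (D y2)⁻¹ * D y) • y
              = ∑ y ∈ s.erase y2, c1 y • y
                - (c1 y2 * (D y2)⁻¹) • ∑ y ∈ s.erase y2, D y • y := by
            rw [Finset.smul_sum, ← Finset.sum_sub_distrib]
            exact Finset.sum_congr rfl fun y _ => by rw [sub_smul, mul_smul]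
          have e4 : (c1 y2 * (D y2)⁻¹) • (D y2 • y2) = c1 y2 • y2 := by
            rw [smul_smul, mul_assoc, inv_mul_cancel₀ hD2, mul_one]
          rw [e3, e1, e2, smul_add, e4]
          abel
        rw [this]
        exact W'.add_mem hd1 (W'.smul_mem _ hEW)
  apply le_antisymm hle
  intro w hw
  have hwtop : w ∈ Submodule.span K {v : V | ∀ i, sV i v = v} := hspan ▸ Submodule.mem_top
  obtain ⟨f, t, ht, -, hsumw⟩ := Submodule.mem_span_iff_exists_finset_subset.mp hwtop
  refine key t.card t rfl (fun y hy => ht hy) f w hw ?_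
  rw [hsumw, sub_self]
  exact W'.zero_mem

end Fermat.Agent.S36
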