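import Fermat.Agent.RED.Gauss.Descent

/-!
# S36 [F0] : `F = K · F0` for an algebraic extension of the coefficient field

`k₁ / k₀` algebraic, `S` a set of Laurent series over `k₀`.  Every element of the field generated
over `k₁` by `S` is a finite `k₁`-linear combination of elements of the field generated over `k₀`
by `S`.
-/

set_option autoImplicit false
noncomputable section

namespace Fermat.Agent.S36

open ModularCurve IntermediateField

variable {k₀ k₁ : Type*} [Field k₀] [Field k₁] [Algebra k₀ k₁]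

theorem exists_sum_coeffMap_of_mem_adjoin [Algebra.IsAlgebraic k₀ k₁]
    (S : Set (LaurentSeries k₀)) (x : LaurentSeries k₁)
    (hx : x ∈ IntermediateField.adjoin k₁ (coeffMap (algebraMap k₀ k₁) '' S)) :
    ∃ (ι : Type) (_ : Fintype ι) (c : ι → k₁) (y : ι → LaurentSeries k₀),
      (∀ i, y i ∈ IntermediateField.adjoin k₀ S) ∧
      x = ∑ i, algebraMap k₁ (LaurentSeries k₁) (c i) * coeffMap (algebraMap k₀ k₁) (y i) := by
  obtain ⟨cm, hcm⟩ : ∃ cm : LaurentSeries k₀ →+* LaurentSeries k₁,
      cm = coeffMap (algebraMap k₀ k₁) := ⟨_, rfl⟩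
  rw [← hcm] at hx ⊢
  have hcmC : ∀ c : k₀, cm (algebraMap k₀ (LaurentSeries k₀) c) =
      algebraMap k₁ (LaurentSeries k₁) (algebraMap k₀ k₁ c) := fun c => by
    rw [hcm, Fermat.Agent.RED.coeffMap_algebraMap]
  let E : Subfield (LaurentSeries k₁) := (IntermediateField.adjoin k₀ S).toSubfield.map cm
  have hE : ∀ z ∈ IntermediateField.adjoin k₀ S, cm z ∈ E := fun z hz => ⟨z, hz, rfl⟩
  let φ : k₀ →+* E :=
    (cm.comp (algebraMap k₀ (LaurentSeries k₀))).codRestrict E
      (fun c => hE _ (IntermediateField.algebraMap_mem _ c))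
  have hφ : (algebraMap E (LaurentSeries k₁)).comp φ =
      (algebraMap k₁ (LaurentSeries k₁)).comp (algebraMap k₀ k₁) := by
    ext1 c
    exact hcmC c
  have halg : ∀ y ∈ Set.range (algebraMap k₁ (LaurentSeries k₁)), IsAlgebraic E y := by
    rintro _ ⟨c, rfl⟩
    obtain ⟨p, hp0, hp⟩ := Algebra.IsAlgebraic.isAlgebraic (R := k₀) c
    refine ⟨p.map φ, (Polynomial.map_ne_zero_iff φ.injective).2 hp0, ?_⟩
    rw [Polynomial.aeval_def, Polynomial.eval₂_map, hφ, ← Polynomial.hom_eval₂,
      ← Polynomial.aeval_def, hp, map_zero]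
  have h1 : x ∈ IntermediateField.adjoin E (Set.range (algebraMap k₁ (LaurentSeries k₁))) := by
    induction hx using IntermediateField.adjoin_induction with
    | mem y hy =>
      obtain ⟨s, hs, rfl⟩ := hy
      exact IntermediateField.algebraMap_mem _
        (⟨cm s, hE s (IntermediateField.subset_adjoin _ _ hs)⟩ : E)
    | algebraMap c => exact IntermediateField.subset_adjoin _ _ ⟨c, rfl⟩
    | add y z _ _ hy hz => exact add_mem hy hz
    | inv y _ hy => exact inv_mem hy
    | mul y z _ _ hy hz => exact mul_mem hy hz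
  have h2 : x ∈ Algebra.adjoin E (Set.range (algebraMap k₁ (LaurentSeries k₁))) := by
    rw [← IntermediateField.adjoin_toSubalgebra_of_isAlgebraic halg]; exact h1
  rw [← Subalgebra.mem_toSubmodule, Algebra.adjoin_eq_span] at h2
  clear h1 hx
  induction h2 using Submodule.span_induction with
  | mem m hm =>
    have : ∃ c : k₁, m = algebraMap k₁ (LaurentSeries k₁) c := by
      induction hm using Submonoid.closure_induction with
      | mem y hy => obtain ⟨c, rfl⟩ := hy; exact ⟨c, rfl⟩
      | one => exact ⟨1, (map_one _).symm⟩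
      | mul a b _ _ ha hb =>
        obtain ⟨c, rfl⟩ := ha
        obtain ⟨d, rfl⟩ := hb
        exact ⟨c * d, (map_mul _ _ _).symm⟩
    obtain ⟨c, rfl⟩ := this
    refine ⟨Unit, inferInstance, fun _ => c, fun _ => 1, fun _ => one_mem _, ?_⟩
    simp
  | zero => exact ⟨Empty, inferInstance, Empty.elim, Empty.elim, fun i => i.elim, by simp⟩
  | add a b _ _ ha hb =>
    obtain ⟨ι, _, c, y, hy, rfl⟩ := ha
    obtain ⟨ι', _, c', y', hy', rfl⟩ := hb
    refine ⟨ι ⊕ ι', inferInstance, Sum.elim c c', Sum.elim y y', ?_, ?_⟩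
    · rintro (i | i)
      · exact hy i
      · exact hy' i
    · rw [Fintype.sum_sum_type]
      rfl
  | smul e a _ ha =>
    obtain ⟨ι, _, c, y, hy, rfl⟩ := ha
    obtain ⟨_, e₀, he₀, rfl⟩ := e
    refine ⟨ι, inferInstance, c, fun i => e₀ * y i, fun i => mul_mem he₀ (hy i), ?_⟩
    show cm e₀ * _ = _
    rw [Finset.mul_sum]
    refine Finset.sum_congr rfl fun i _ => ?_
    rw [map_mul]; ring

end Fermat.Agent.S36
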