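import Fermat.Agent.S36.Mod.F0Defs
import Fermat.Agent.S36.F0.Descent
import Fermat.Agent.S36.F0.Span
import Fermat.Prelude.Def_ModularCurve_ArithmeticGalois

/-!
# S36 [F0] : the function field `F0 A N` over the inertia field `KK A = ℚ̄^{I_A}`

(definitions `KK`, `RK`, `F0`, `cK`, `embF0` in `S36/Mod/F0Defs.lean`)

* `mem_range_embF0_iff` : the image of `embF0` is the field of `I_A`-invariants of `FN N`;
* `exists_sum_embF0`, `span_range_embF0` : `FN N = ℚ̄ · F0`;
* `span_inter_range_embF0` : an `I_A`-stable `ℚ̄`-subspace of `FN N` is spanned by its elements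
  in `F0`.
-/

set_option autoImplicit false
noncomputable section

namespace Fermat.Agent.S36

open ModularCurve AlgebraicCurve Fermat.Agent.S24

local notation "GQ" => (AlgebraicClosure ℚ ≃ₐ[ℚ] AlgebraicClosure ℚ)

variable (A : ValuationSubring Kb) (N : ℕ) [NeZero N]

instance instIsAlgebraicKK : Algebra.IsAlgebraic (KK A) Kb :=
  inferInstanceAs (Algebra.IsAlgebraic ↥(K0 A) Kb)

theorem f0_cK_coeff (x : LaurentSeries (KK A)) (n : ℤ) :
    (cK A x).coeff n = algebraMap (KK A) Kb (x.coeff n) := rfl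

theorem f0_cK_coeffEmb (z : LaurentSeries ℚ) : cK A (coeffEmb (KK A) z) = coeffEmb Kb z := by
  ext n
  show algebraMap (KK A) Kb (algebraMap ℚ (KK A) (z.coeff n)) = algebraMap ℚ Kb (z.coeff n)
  rw [eq_ratCast, eq_ratCast, map_ratCast]

theorem f0_cK_image (F₀ : IntermediateField ℚ (LaurentSeries ℚ)) :
    cK A '' (⇑(coeffEmb (KK A)) '' (F₀ : Set (LaurentSeries ℚ))) =
      ⇑(coeffEmb Kb) '' (F₀ : Set (LaurentSeries ℚ)) := by
  rw [Set.image_image]
  exact Set.image_congr fun z _ => f0_cK_coeffEmb A z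

theorem embF0_injective : Function.Injective (embF0 A N) := (embF0 A N).injective

theorem embF0_smul (c : KK A) (y : F0 A N) :
    embF0 A N (c • y) = algebraMap (KK A) Kb c • embF0 A N y := by
  rw [Algebra.smul_def, Algebra.smul_def, map_mul, embF0_algebraMap]

/-- **the image of `F0` is the field of `I_A`-invariants**. -/
theorem mem_range_embF0_iff (x : FN N) :
    x ∈ Set.range (embF0 A N) ↔
      ∀ σ ∈ A.inertiaSubgroupIn ℚ, arithmeticGalois (modularFunctionFieldFull N) σ • x = x := by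
  constructor
  · rintro ⟨y, rfl⟩ σ hσ
    apply Subtype.ext
    rw [coe_arithmeticGalois_smul, coe_embF0]
    ext n
    rw [coeffMap_coeff, f0_cK_coeff]
    exact mem_K0.mp (algebraMap_KK_mem _) σ hσ
  · intro h
    obtain ⟨y, hy⟩ := exists_embF0_eq A N x (fun n => mem_K0.mpr fun σ hσ =>
      congrArg (fun z : FN N => (z : LaurentSeries Kb).coeff n) (h σ hσ))
    exact ⟨y, hy⟩

theorem smul_embF0 {σ : GQ} (hσ : σ ∈ A.inertiaSubgroupIn ℚ) (y : F0 A N) :
    arithmeticGalois (modularFunctionFieldFull N) σ • embF0 A N y = embF0 A N y :=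
  (mem_range_embF0_iff A N _).mp ⟨y, rfl⟩ σ hσ

/-- `FN N = ℚ̄ · F0`. -/
theorem exists_sum_embF0 (x : FN N) :
    ∃ (ι : Type) (_ : Fintype ι) (c : ι → Kb) (y : ι → F0 A N),
      x = ∑ i, c i • embF0 A N (y i) := by
  have hx : (x : LaurentSeries Kb) ∈ IntermediateField.adjoin Kb
      (coeffMap (algebraMap (KK A) Kb) ''
        (⇑(coeffEmb (KK A)) '' (modularFunctionFieldFull N : Set (LaurentSeries ℚ)))) := by
    have : (x : LaurentSeries Kb) ∈ IntermediateField.adjoin Kb
      (⇑(coeffEmb Kb) '' (modularFunctionFieldFull N : Set (LaurentSeries ℚ))) := x.2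
    rw [← f0_cK_image A] at this
    exact this
  obtain ⟨ι, _, c, y, hy, hxy⟩ := exists_sum_coeffMap_of_mem_adjoin _ _ hx
  refine ⟨ι, inferInstance, c, fun i => ⟨y i, hy i⟩, Subtype.ext ?_⟩
  rw [hxy, AddSubmonoidClass.coe_finsetSum]
  refine Finset.sum_congr rfl fun i _ => ?_
  rw [Algebra.smul_def]
  rfl

theorem span_range_embF0 : Submodule.span Kb (Set.range (embF0 A N)) = ⊤ := by
  rw [eq_top_iff]
  intro x _
  obtain ⟨ι, _, c, y, rfl⟩ := exists_sum_embF0 A N x
  exact Submodule.sum_mem _ fun i _ => Submodule.smul_mem _ _ (Submodule.subset_span ⟨y i, rfl⟩)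

/-- **Galois descent**: an `I_A`-stable subspace of `FN N` is spanned by its elements in `F0`. -/
theorem span_inter_range_embF0 (W : Submodule Kb (FN N))
    (hW : ∀ σ ∈ A.inertiaSubgroupIn ℚ, ∀ w ∈ W,
      arithmeticGalois (modularFunctionFieldFull N) σ • w ∈ W) :
    Submodule.span Kb {v | v ∈ W ∧ v ∈ Set.range (embF0 A N)} = W := by
  have key := span_invariants_of_stable (K := Kb) (V := FN N)
    (ι := A.inertiaSubgroupIn ℚ)
    (fun σ => ((σ : GQ) : Kb →+* Kb))
    (fun σ => ((arithmeticRingAut (modularFunctionFieldFull N) (σ : GQ) : _ ≃+* _) :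
      _ →+* _).toAddMonoidHom)
    (by
      intro σ c v
      show arithmeticRingAut (modularFunctionFieldFull N) (σ : GQ) (c • v) =
        (σ : GQ) c • arithmeticRingAut (modularFunctionFieldFull N) (σ : GQ) v
      rw [Algebra.smul_def, Algebra.smul_def, map_mul, arithmeticRingAut_algebraMap])
    (by
      rw [eq_top_iff, ← span_range_embF0 A N]
      refine Submodule.span_mono ?_
      rintro _ ⟨y, rfl⟩ σ
      exact smul_embF0 A N σ.2 y)
    W (fun σ w hw => hW σ σ.2 w hw)
  refine Eq.trans ?_ key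
  congr 1
  ext v
  refine and_congr Iff.rfl ?_
  rw [mem_range_embF0_iff]
  exact ⟨fun h σ => h σ σ.2, fun h σ hσ => h ⟨σ, hσ⟩⟩

end Fermat.Agent.S36
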